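import Fermat.Agent.DivPoly.Zeros
import Mathlib.FieldTheory.Separable
import Mathlib.Algebra.Module.Torsion.Basic

/-!
# The number of `n`-torsion points

Over an algebraically closed field of characteristic zero, an elliptic curve has exactly `n ^ 2`
points killed by `n`.
-/

set_option autoImplicit false

namespace Fermat.Agent.DivPoly

open WeierstrassCurve WeierstrassCurve.Affine WeierstrassCurve.Affine.Point
open Polynomial

variable {F : Type*} [Field F] {W : Affine F} [DecidableEq F] [CharZero F] [IsAlgClosed F]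

theorem no_common_root (hΔ : W.Δ ≠ 0) (n : ℕ) (hn : n ≠ 0) (x : F) :
    ¬ ((W.Φ n).eval x = 0 ∧ (W.ΨSq n).eval x = 0) := by
  rintro ⟨h1, h2⟩
  obtain ⟨P, hP, rfl⟩ := exists_point hΔ x
  have hz := (eval_ΨSq_eq_zero_iff hΔ hP n).mp h2
  rw [← xc_mul_uu_sq hP, uu_sq hP, h2, mul_zero, zero_sub, neg_eq_zero, mul_eq_zero] at h1
  rcases h1 with h1 | h1
  · have := (uu_eq_zero_iff hΔ hP (n + 1)).mp (by push_cast; exact h1)
    rw [add_nsmul, hz, zero_add, one_nsmul] at this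
    exact hP this
  · have := (uu_eq_zero_iff hΔ hP (n - 1)).mp (by
      rw [Nat.cast_sub (by omega)]; push_cast; exact h1)
    obtain ⟨k, rfl⟩ : ∃ k, n = k + 1 := ⟨n - 1, by omega⟩
    rw [Nat.add_sub_cancel] at this
    rw [add_nsmul, this, zero_add, one_nsmul] at hz
    exact hP hz

theorem isCoprime_Φ_ΨSq (hΔ : W.Δ ≠ 0) (n : ℕ) (hn : n ≠ 0) :
    IsCoprime (W.Φ n) (W.ΨSq n) := by
  rw [isCoprime_iff_aeval_ne_zero_of_isAlgClosed F F]
  intro x
  by_contra hcon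
  push Not at hcon
  rw [coe_aeval_eq_eval] at hcon
  exact no_common_root hΔ n hn x hcon

theorem wronskian_ne_zero (hΔ : W.Δ ≠ 0) (n : ℕ) (hn : n ≠ 0) :
    derivative (W.Φ n) * W.ΨSq n - W.Φ n * derivative (W.ΨSq n) ≠ 0 := by
  intro h
  have hdvd : W.Φ n ∣ derivative (W.Φ n) * W.ΨSq n := ⟨derivative (W.ΨSq n), by
    linear_combination h⟩
  have hdvd' := (isCoprime_Φ_ΨSq hΔ n hn).dvd_of_dvd_mul_right hdvd
  have hpos : 0 < (W.Φ n).natDegree := natDegree_Φ_pos W (by exact_mod_cast hn)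
  have hlt := natDegree_derivative_lt (p := W.Φ n) (by omega)
  have h0 : derivative (W.Φ n) = 0 := eq_zero_of_dvd_of_natDegree_lt hdvd' hlt
  rw [derivative_eq_zero] at h0
  omega

/-- The set of bad values. -/
theorem exists_good (hΔ : W.Δ ≠ 0) (n : ℕ) (hn : n ≠ 0) :
    ∃ c : F, (W.Φ n - C c * W.ΨSq n).Separable ∧ W.Ψ₂Sq.eval c ≠ 0 := by
  set w := derivative (W.Φ n) * W.ΨSq n - W.Φ n * derivative (W.ΨSq n) with hw
  have hw0 : w ≠ 0 := wronskian_ne_zero hΔ n hn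
  have h2 : W.Ψ₂Sq ≠ 0 := Ψ₂Sq_ne_zero W (by norm_num)
  set T : Finset F := (w.roots.toFinset.image fun x => (W.Φ n).eval x / (W.ΨSq n).eval x) ∪
    W.Ψ₂Sq.roots.toFinset with hT
  obtain ⟨c, hc⟩ := Infinite.exists_notMem_finset T
  rw [hT, Finset.mem_union, not_or] at hc
  refine ⟨c, ?_, ?_⟩
  · rw [Separable, isCoprime_iff_aeval_ne_zero_of_isAlgClosed F F]
    intro x
    by_contra hcon
    push Not at hcon
    rw [coe_aeval_eq_eval] at hcon
    simp only [eval_sub, eval_mul, eval_C, derivative_sub, derivative_mul, derivative_C, zero_mul,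
      zero_add] at hcon
    obtain ⟨h3, h4⟩ := hcon
    have hx : (W.ΨSq n).eval x ≠ 0 := by
      intro h
      apply no_common_root hΔ n hn x
      refine ⟨?_, h⟩
      rw [h] at h3; linear_combination h3
    apply hc.1
    rw [Finset.mem_image]
    refine ⟨x, ?_, ?_⟩
    · rw [Multiset.mem_toFinset, mem_roots hw0, IsRoot.def, hw, eval_sub, eval_mul, eval_mul]
      linear_combination (W.ΨSq n).eval x * h4 - (derivative (W.ΨSq n)).eval x * h3
    · rw [div_eq_iff hx]; linear_combination h3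
  · intro h
    apply hc.2
    rw [Multiset.mem_toFinset, mem_roots h2]
    exact h

omit [DecidableEq F] [CharZero F] [IsAlgClosed F] in
theorem natDegree_fc (n : ℕ) (c : F) (hn : n ≠ 0) :
    (W.Φ n - C c * W.ΨSq n).natDegree = n ^ 2 := by
  have h1 : (W.Φ n).natDegree = n ^ 2 := by rw [natDegree_Φ]; simp
  have h2 : (C c * W.ΨSq n).natDegree ≤ n ^ 2 - 1 :=
    (natDegree_C_mul_le _ _).trans (by simpa using natDegree_ΨSq_le W (n : ℤ))
  have h3 : 0 < n ^ 2 := by positivity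
  rw [natDegree_sub_eq_left_of_natDegree_lt, h1]
  omega

/-- `#{Q | n • Q = P} = n²` for suitable `P`. -/
theorem exists_fiber_card (hΔ : W.Δ ≠ 0) (n : ℕ) (hn : n ≠ 0) :
    ∃ P : W.Point, Nat.card {Q : W.Point // n • Q = P} = n ^ 2 := by
  obtain ⟨c, hsep, hc2⟩ := exists_good hΔ n hn
  obtain ⟨P, hP, rfl⟩ := exists_point hΔ c
  refine ⟨P, ?_⟩
  set f := W.Φ n - C (xc P) * W.ΨSq n with hf
  have hdeg : f.natDegree = n ^ 2 := natDegree_fc n (xc P) hn
  have hf0 : f ≠ 0 := by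
    intro h
    rw [h, natDegree_zero] at hdeg
    exact (pow_ne_zero 2 hn) hdeg.symm
  have hcard : f.roots.toFinset.card = n ^ 2 := by
    rw [Multiset.toFinset_card_of_nodup (nodup_roots hsep), IsAlgClosed.card_roots_eq_natDegree,
      hdeg]
  have h2P : P + P ≠ 0 := by
    intro h
    have := psi2_eq_zero hP h
    apply hc2
    rw [show W.Ψ₂Sq.eval (xc P) = psi2 P ^ 2 by rw [psi2_sq hP, Ψ₂Sq]; simp, this]
    simp
  rw [← hcard, ← Nat.card_eq_finsetCard]
  have hmem : ∀ Q : {Q : W.Point // n • Q = P}, xc Q.1 ∈ f.roots.toFinset := by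
    rintro ⟨Q, hQ⟩
    have hnQ : n • Q ≠ 0 := by rw [hQ]; exact hP
    have := xc_nsmul hΔ n hnQ
    rw [Multiset.mem_toFinset, mem_roots hf0, IsRoot.def, hf, eval_sub, eval_mul, eval_C]
    rw [hQ] at this
    linear_combination -this
  refine Nat.card_congr (Equiv.ofBijective (fun Q => ⟨xc Q.1, hmem Q⟩) ⟨?_, ?_⟩)
  · rintro ⟨Q, hQ⟩ ⟨Q', hQ'⟩ h
    simp only [Subtype.mk.injEq] at h ⊢
    have hQ0 : Q ≠ 0 := by rintro rfl; rw [nsmul_zero] at hQ; exact hP hQ.symm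
    have hQ0' : Q' ≠ 0 := by rintro rfl; rw [nsmul_zero] at hQ'; exact hP hQ'.symm
    rcases eq_or_eq_neg hQ0 hQ0' h with h' | h'
    · exact h'
    · exfalso
      apply h2P
      nth_rw 1 [← hQ]
      rw [h', smul_neg, hQ', neg_add_cancel]
  · rintro ⟨x, hx⟩
    rw [Multiset.mem_toFinset, mem_roots hf0, IsRoot.def, hf, eval_sub, eval_mul, eval_C] at hx
    obtain ⟨Q, hQ, rfl⟩ := exists_point hΔ x
    have hnQ : n • Q ≠ 0 := by
      intro h
      rw [← eval_ΨSq_eq_zero_iff hΔ hQ] at h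
      apply no_common_root hΔ n hn (xc Q)
      refine ⟨?_, h⟩
      rw [h] at hx; linear_combination hx
    have hne : (W.ΨSq n).eval (xc Q) ≠ 0 := by rwa [Ne, eval_ΨSq_eq_zero_iff hΔ hQ]
    have hx' : xc (n • Q) = xc P := by
      have := xc_nsmul hΔ n hnQ
      apply mul_right_cancel₀ hne
      linear_combination this + hx
    rcases eq_or_eq_neg hnQ hP hx' with h | h
    · exact ⟨⟨Q, h⟩, rfl⟩
    · refine ⟨⟨-Q, by rw [smul_neg, h, neg_neg]⟩, ?_⟩
      simp

/-- The number of points killed by `n` is `n ^ 2`. -/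
theorem natCard_torsion (hΔ : W.Δ ≠ 0) (n : ℕ) (hn : n ≠ 0) :
    Nat.card {Q : W.Point // n • Q = 0} = n ^ 2 := by
  obtain ⟨P, hP⟩ := exists_fiber_card hΔ n hn
  have hpos : 0 < Nat.card {Q : W.Point // n • Q = P} := by rw [hP]; positivity
  obtain ⟨⟨Q0, hQ0⟩⟩ := (Nat.card_pos_iff.mp hpos).1
  rw [← hP]
  refine Nat.card_congr
    ⟨fun Q => ⟨Q.1 + Q0, by rw [nsmul_add, Q.2, hQ0, zero_add]⟩,
      fun Q => ⟨Q.1 - Q0, by rw [nsmul_sub, Q.2, hQ0, sub_self]⟩, ?_, ?_⟩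
  · rintro ⟨Q, hQ⟩; simp
  · rintro ⟨Q, hQ⟩; simp

/-- `Nat.card E[n] = n ^ 2`, as a submodule. -/
theorem natCard_torsionBy (hΔ : W.Δ ≠ 0) (n : ℕ) (hn : n ≠ 0) :
    Nat.card (Submodule.torsionBy ℤ W.Point (n : ℤ)) = n ^ 2 := by
  rw [← natCard_torsion hΔ n hn]
  refine Nat.card_congr (Equiv.subtypeEquivRight fun Q => ?_)
  rw [Submodule.mem_torsionBy_iff, natCast_zsmul]

end Fermat.Agent.DivPoly
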