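import Fermat.Agent.DivPoly.Seq

/-!
# The elliptic relation at points of large order
-/

set_option autoImplicit false

namespace Fermat.Agent.DivPoly

open WeierstrassCurve WeierstrassCurve.Affine WeierstrassCurve.Affine.Point

variable {F : Type*} [Field F] {W : Affine F} [DecidableEq F]

/-- All multiples `k • P` with `1 ≤ k ≤ M` are non-zero. -/
def BigOrder (P : W.Point) (M : ℕ) : Prop := ∀ k : ℕ, 1 ≤ k → k ≤ M → k • P ≠ 0

lemma BigOrder.mono {P : W.Point} {M N : ℕ} (h : BigOrder P M) (hN : N ≤ M) : BigOrder P N :=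
  fun k h1 h2 => h k h1 (h2.trans hN)

lemma BigOrder.zsmul_ne {P : W.Point} {M : ℕ} (h : BigOrder P M) (k : ℕ) (h1 : 1 ≤ k)
    (h2 : k ≤ M) : (k : ℤ) • P ≠ 0 := by
  rw [natCast_zsmul]; exact h k h1 h2

lemma BigOrder.xc_ne {P : W.Point} {M : ℕ} (h : BigOrder P M) {a b : ℕ} (hab : b < a)
    (hb : 1 ≤ b) (hM : a + b ≤ M) : xc ((a : ℤ) • P) ≠ xc ((b : ℤ) • P) := by
  apply DivPoly.xc_ne (h.zsmul_ne a (by omega) (by omega)) (h.zsmul_ne b hb (by omega))
  · intro e
    apply h.zsmul_ne (a - b) (by omega) (by omega)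
    rw [Nat.cast_sub hab.le, sub_zsmul, e, add_neg_cancel]
  · intro e
    apply h.zsmul_ne (a + b) (by omega) (by omega)
    rw [Nat.cast_add, add_zsmul, e, neg_add_cancel]

lemma BigOrder.uu_ne {P : W.Point} {M : ℕ} (h : BigOrder P M) (k : ℕ) (h1 : 1 ≤ k)
    (h2 : k ≤ M) : uu P k ≠ 0 :=
  (uu_ne_zero_and_AA k h1 fun j hj1 hj2 => h j hj1 (hj2.trans h2)).1

lemma BigOrder.AA {P : W.Point} {M : ℕ} (h : BigOrder P M) (k : ℕ) (h1 : 1 ≤ k)
    (h2 : k ≤ M) : DivPoly.AA P k :=
  (uu_ne_zero_and_AA k h1 fun j hj1 hj2 => h j hj1 (hj2.trans h2)).2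

/-- `x(nP) - x(mP) = ψ_{m+n} ψ_{m-n} / (ψ_m² ψ_n²)`. -/
def DD (P : W.Point) (m n : ℤ) : Prop :=
  (xc (n • P) - xc (m • P)) * uu P m ^ 2 * uu P n ^ 2 = uu P (m + n) * uu P (m - n)

lemma DD_step {P : W.Point} {m n : ℤ} (hP : P ≠ 0) (hm : m • P ≠ 0) (hn : n • P ≠ 0)
    (hx1 : xc (m • P) ≠ xc P) (hxn : xc (m • P) ≠ xc (n • P))
    (Am : AA P m) (Ap : AA P (m + n)) (Aq : AA P (m - n))
    (D : DD P m n) (E : DD P (m - 1) n) (hne : uu P (m - 1 + n) * uu P (m - 1 - n) ≠ 0) :
    DD P (m + 1) n := by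
  have s1 := xc_add_add_xc_sub hm hP hx1
  have s2 := xc_add_mul_xc_sub hm hP hx1
  have t1 := xc_add_add_xc_sub hm hn hxn
  have t2 := xc_add_mul_xc_sub hm hn hxn
  have e1 : m • P + P = (m + 1) • P := by rw [add_zsmul, one_zsmul]
  have e2 : m • P - P = (m - 1) • P := by rw [sub_zsmul, one_zsmul, sub_eq_add_neg]
  have e3 : m • P + n • P = (m + n) • P := by rw [add_zsmul]
  have e4 : m • P - n • P = (m - n) • P := by rw [sub_zsmul, sub_eq_add_neg]
  rw [e1, e2] at s1 s2
  rw [e3, e4] at t1 t2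
  rw [AA] at Am Ap Aq
  rw [DD] at D E ⊢
  apply mul_right_cancel₀ hne
  nth_rw 1 [← E]
  have k1 : (xc (n • P) - xc ((m + 1) • P)) * (xc (n • P) - xc ((m - 1) • P)) *
      (xc P - xc (m • P)) ^ 2 = (xc P - xc ((m + n) • P)) * (xc P - xc ((m - n) • P)) *
      (xc (n • P) - xc (m • P)) ^ 2 := by
    linear_combination s2 - xc (n • P) * s1 - t2 + xc P * t1
  calc (xc (n • P) - xc ((m + 1) • P)) * uu P (m + 1) ^ 2 * uu P n ^ 2 *
        ((xc (n • P) - xc ((m - 1) • P)) * uu P (m - 1) ^ 2 * uu P n ^ 2)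
      = (xc (n • P) - xc ((m + 1) • P)) * (xc (n • P) - xc ((m - 1) • P)) * uu P n ^ 4 *
        (uu P (m + 1) * uu P (m - 1)) ^ 2 := by ring
    _ = ((xc (n • P) - xc ((m + 1) • P)) * (xc (n • P) - xc ((m - 1) • P)) *
          (xc P - xc (m • P)) ^ 2) * uu P n ^ 4 * uu P m ^ 4 := by rw [← Am]; ring
    _ = (xc P - xc ((m + n) • P)) * (xc P - xc ((m - n) • P)) *
          ((xc (n • P) - xc (m • P)) * uu P m ^ 2 * uu P n ^ 2) ^ 2 := by rw [k1]; ring
    _ = ((xc P - xc ((m + n) • P)) * uu P (m + n) ^ 2) *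
          ((xc P - xc ((m - n) • P)) * uu P (m - n) ^ 2) := by rw [D]; ring
    _ = uu P (m + n + 1) * uu P (m + n - 1) * (uu P (m - n + 1) * uu P (m - n - 1)) := by
          rw [Ap, Aq]
    _ = uu P (m + 1 + n) * uu P (m + 1 - n) * (uu P (m - 1 + n) * uu P (m - 1 - n)) := by
          rw [show m + 1 + n = m + n + 1 by ring, show m + 1 - n = m - n + 1 by ring,
            show m - 1 + n = m + n - 1 by ring, show m - 1 - n = m - n - 1 by ring]
          ring

theorem BigOrder.DD {P : W.Point} {M : ℕ} (h : BigOrder P M) (n : ℕ) (hn : 1 ≤ n) (d : ℕ)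
    (hd : 1 ≤ d) (hM : n + d + n ≤ M) : DD P ((n : ℤ) + d) n := by
  induction d using Nat.strong_induction_on with
  | _ d ih =>
    have hP : P ≠ 0 := by simpa using h 1 le_rfl (by omega)
    by_cases h1 : d = 1
    · subst h1
      have A0 := h.AA n hn (by omega)
      have A1 := h.AA (n + 1) (by omega) (by omega)
      push_cast at A0 A1
      have := uu_odd' A0 A1
      rw [DivPoly.DD]
      push_cast
      rw [show (n : ℤ) + 1 + n = 2 * n + 1 by ring, show (n : ℤ) + 1 - n = 1 by ring, this, uu_one]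
      ring
    by_cases h2 : d = 2
    · subst h2
      have A0 := h.AA n hn (by omega)
      have A2 := h.AA (n + 2) (by omega) (by omega)
      push_cast at A0 A2
      have := uu_even' (k := (n : ℤ) + 1) (P := P) (by rwa [add_sub_cancel_right])
        (by rwa [show (n : ℤ) + 1 + 1 = n + 2 by ring])
      rw [DivPoly.DD]
      push_cast
      rw [show (n : ℤ) + 2 + n = 2 * (n + 1) by ring, show (n : ℤ) + 2 - n = 2 by ring, uu_two,
        this, add_sub_cancel_right, show (n : ℤ) + 1 + 1 = n + 2 by ring]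
      ring
    obtain ⟨e, rfl⟩ : ∃ e, d = e + 2 := ⟨d - 2, by omega⟩
    have D1 := ih (e + 1) (by omega) (by omega) (by omega)
    have D0 := ih e (by omega) (by omega) (by omega)
    have hm : ((n + (e + 1) : ℕ) : ℤ) = (n : ℤ) + ((e + 1 : ℕ) : ℤ) := by push_cast; ring
    have := DD_step (P := P) (m := (n : ℤ) + ((e + 1 : ℕ) : ℤ)) (n := n) hP
      (by rw [← hm]; exact h.zsmul_ne _ (by omega) (by omega))
      (h.zsmul_ne _ (by omega) (by omega))
      (by rw [← hm]; simpa using h.xc_ne (a := n + (e + 1)) (b := 1) (by omega) le_rfl (by omega))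
      (by rw [← hm]; exact h.xc_ne (by omega) (by omega) (by omega))
      (by rw [← hm]; exact h.AA _ (by omega) (by omega))
      (by
        have := h.AA (n + (e + 1) + n) (by omega) (by omega)
        push_cast at this ⊢; exact this)
      (by
        have := h.AA (e + 1) (by omega) (by omega)
        push_cast at this ⊢; rwa [show (n : ℤ) + (e + 1) - n = e + 1 by ring])
      D1
      (by
        push_cast at D0 ⊢; rwa [show (n : ℤ) + (e + 1) - 1 = n + e by ring])
      (by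
        have u1 := h.uu_ne (n + e + n) (by omega) (by omega)
        have u2 := h.uu_ne e (by omega) (by omega)
        push_cast at u1 u2 ⊢
        rw [show (n : ℤ) + (e + 1) - 1 + n = n + e + n by ring,
          show (n : ℤ) + (e + 1) - 1 - n = e by ring]
        exact mul_ne_zero u1 u2)
    push_cast at this ⊢
    rwa [show (n : ℤ) + (e + 2) = n + (e + 1) + 1 by ring]

/-- The elliptic relation at a point of large order. -/
theorem BigOrder.rel {P : W.Point} {m n : ℕ} (hn : 1 ≤ n) (hnm : n ≤ m)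
    (h : BigOrder P (m + n)) :
    uu P ((m : ℤ) + n) * uu P ((m : ℤ) - n) = uu P ((m : ℤ) + 1) * uu P ((m : ℤ) - 1) * uu P n ^ 2
      - uu P ((n : ℤ) + 1) * uu P ((n : ℤ) - 1) * uu P m ^ 2 := by
  rcases hnm.eq_or_lt with rfl | hlt
  · simp
  · have D := h.DD n hn (m - n) (by omega) (by omega)
    have e : (n : ℤ) + ((m - n : ℕ) : ℤ) = m := by omega
    have A0 := h.AA n hn (by omega)
    have A1 := h.AA m (by omega) (by omega)
    rw [e, DivPoly.DD] at D
    rw [DivPoly.AA] at A0 A1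
    rw [← D, ← A0, ← A1]
    ring

end Fermat.Agent.DivPoly
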