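import Fermat.Agent.DivPoly.Net
import Mathlib.FieldTheory.IsAlgClosed.Basic
import Mathlib.GroupTheory.OrderOfElement

/-!
# The elliptic relation as a polynomial identity, and zeros of division polynomials

Over an algebraically closed field of characteristic zero, for an elliptic curve `W`:
`uu P n = 0 ↔ n • P = 0`.
-/

set_option autoImplicit false

namespace Fermat.Agent.DivPoly

open WeierstrassCurve WeierstrassCurve.Affine WeierstrassCurve.Affine.Point
open Polynomial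

variable {F : Type*} [Field F] {W : Affine F}

lemma uu_sq {P : W.Point} (hP : P ≠ 0) (n : ℤ) : uu P n ^ 2 = (W.ΨSq n).eval (xc P) := by
  have := psi2_sq hP
  rw [uu_eq hP, ΨSq, mul_pow, eval_mul, eval_pow]
  split_ifs
  · congr 1
    rw [this, Ψ₂Sq]
    simp
  · simp

lemma uu_mul {P : W.Point} (hP : P ≠ 0) (m n : ℤ) (h : Even m ↔ Even n) :
    uu P m * uu P n = (W.preΨ m * W.preΨ n * (if Even m then W.Ψ₂Sq else 1)).eval (xc P) := by
  have := psi2_sq hP
  rw [uu_eq hP, uu_eq hP]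
  by_cases hm : Even m
  · rw [if_pos hm, if_pos (h.mp hm), if_pos hm, eval_mul, eval_mul]
    have e : W.Ψ₂Sq.eval (xc P) = psi2 P ^ 2 := by rw [this, Ψ₂Sq]; simp
    rw [e]; ring
  · rw [if_neg hm, if_neg (fun hn => hm (h.mpr hn)), if_neg hm, eval_mul, eval_mul]; simp

lemma xc_mul_uu_sq {P : W.Point} (hP : P ≠ 0) (n : ℤ) :
    xc P * uu P n ^ 2 - uu P (n + 1) * uu P (n - 1) = (W.Φ n).eval (xc P) := by
  rw [uu_sq hP, uu_mul hP _ _ (by rw [Int.even_add_one, Int.even_sub_one]), WeierstrassCurve.Φ]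
  simp only [eval_sub, eval_mul, eval_X, Int.even_add_one, ite_not]

lemma exists_point [IsAlgClosed F] (hΔ : W.Δ ≠ 0) (x : F) :
    ∃ P : W.Point, P ≠ 0 ∧ xc P = x := by
  obtain ⟨y, hy⟩ := IsAlgClosed.exists_root
    (X ^ 2 + C (W.a₁ * x + W.a₃) * X - C (x ^ 3 + W.a₂ * x ^ 2 + W.a₄ * x + W.a₆) : F[X]) (by
      have : (X ^ 2 + C (W.a₁ * x + W.a₃) * X - C (x ^ 3 + W.a₂ * x ^ 2 + W.a₄ * x + W.a₆) :
        F[X]) = C 1 * X ^ 2 + C (W.a₁ * x + W.a₃) * X +
          C (-(x ^ 3 + W.a₂ * x ^ 2 + W.a₄ * x + W.a₆)) := by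
        rw [C_1, one_mul, C_neg, sub_eq_add_neg]
      rw [this, degree_quadratic one_ne_zero]; norm_num)
  have heq : W.Equation x y := by
    rw [equation_iff]
    simp only [IsRoot.def, eval_sub, eval_add, eval_mul, eval_pow, eval_X, eval_C] at hy
    linear_combination hy
  exact ⟨.some x y ((equation_iff_nonsingular_of_Δ_ne_zero hΔ).mp heq), some_ne_zero _, rfl⟩

variable [DecidableEq F]

lemma BigOrder_iff {P : W.Point} {M : ℕ} :
    BigOrder P M ↔ addOrderOf P = 0 ∨ M < addOrderOf P := by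
  constructor
  · intro h
    by_contra hcon
    push Not at hcon
    exact h (addOrderOf P) (Nat.one_le_iff_ne_zero.mpr hcon.1) hcon.2 (addOrderOf_nsmul_eq_zero P)
  · rintro (h | h) k h1 h2 h3
    · exact (addOrderOf_eq_zero_iff'.mp h) k h1 h3
    · exact absurd (addOrderOf_le_of_nsmul_eq_zero h1 h3) (by omega)

theorem uu_addOrderOf {P : W.Point} (hP : P ≠ 0) : uu P (addOrderOf P) = 0 := by
  by_cases h0 : addOrderOf P = 0
  · rw [h0]; simp
  have h1 : addOrderOf P ≠ 1 := by rwa [Ne, AddMonoid.addOrderOf_eq_one_iff]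
  apply uu_eq_zero_of_order hP _ (by omega) _ (addOrderOf_nsmul_eq_zero P)
  intro k hk1 hk2 h
  exact absurd (addOrderOf_le_of_nsmul_eq_zero hk1 h) (by omega)

theorem exists_exceptional [CharZero F] (W : Affine F) (M : ℕ) :
    ∃ S : Finset F, ∀ P : W.Point, P ≠ 0 → xc P ∉ S → BigOrder P M := by
  refine ⟨(∏ k ∈ Finset.Icc 1 M, W.ΨSq k).roots.toFinset, fun P hP hS => ?_⟩
  rw [BigOrder_iff]
  by_contra hcon
  push Not at hcon
  apply hS
  have hne : ∏ k ∈ Finset.Icc 1 M, W.ΨSq k ≠ 0 := by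
    rw [Finset.prod_ne_zero_iff]
    intro k hk
    rw [Finset.mem_Icc] at hk
    exact ΨSq_ne_zero _ (by
      have : k ≠ 0 := by omega
      exact_mod_cast this)
  rw [Multiset.mem_toFinset, mem_roots hne, IsRoot.def, eval_prod]
  apply Finset.prod_eq_zero (i := addOrderOf P)
  · rw [Finset.mem_Icc]; exact ⟨Nat.one_le_iff_ne_zero.mpr hcon.1, hcon.2⟩
  · rw [← uu_sq hP, uu_addOrderOf hP]; simp

/-- The elliptic relation as a polynomial identity. -/
theorem poly_rel [CharZero F] [IsAlgClosed F] (hΔ : W.Δ ≠ 0) (m n : ℕ) (hn : 1 ≤ n)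
    (hnm : n ≤ m) :
    W.preΨ ((m : ℤ) + n) * W.preΨ ((m : ℤ) - n) * (if Even ((m : ℤ) + n) then W.Ψ₂Sq else 1) =
    (W.preΨ ((m : ℤ) + 1) * W.preΨ ((m : ℤ) - 1) * (if Even ((m : ℤ) + 1) then W.Ψ₂Sq else 1)) *
      W.ΨSq n -
    (W.preΨ ((n : ℤ) + 1) * W.preΨ ((n : ℤ) - 1) * (if Even ((n : ℤ) + 1) then W.Ψ₂Sq else 1)) *
      W.ΨSq m := by
  obtain ⟨S, hS⟩ := exists_exceptional W (m + n)
  apply Polynomial.eq_of_infinite_eval_eq
  apply Set.Infinite.mono (s := {x | x ∉ S})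
  · intro x hx
    obtain ⟨P, hP, rfl⟩ := exists_point hΔ x
    have h := hS P hP hx
    have := h.rel hn hnm
    rw [uu_mul hP _ _ (by rw [Int.even_add, Int.even_sub]),
      uu_mul hP _ _ (by rw [Int.even_add_one, Int.even_sub_one]),
      uu_mul hP _ _ (by rw [Int.even_add_one, Int.even_sub_one]), uu_sq hP, uu_sq hP] at this
    simp only [Set.mem_ofPred_eq, eval_sub]
    rw [this, eval_mul (p := _ * _ * _), eval_mul (p := _ * _ * _)]
  · exact Set.Finite.infinite_compl (Finset.finite_toSet S)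

/-- The elliptic relation at an arbitrary point. -/
theorem uu_rel [CharZero F] [IsAlgClosed F] (hΔ : W.Δ ≠ 0) {P : W.Point} (hP : P ≠ 0)
    (m n : ℕ) (hn : 1 ≤ n) (hm : 1 ≤ m) :
    uu P ((m : ℤ) + n) * uu P ((m : ℤ) - n) = uu P ((m : ℤ) + 1) * uu P ((m : ℤ) - 1) * uu P n ^ 2
      - uu P ((n : ℤ) + 1) * uu P ((n : ℤ) - 1) * uu P m ^ 2 := by
  have key : ∀ m n : ℕ, 1 ≤ n → n ≤ m → uu P ((m : ℤ) + n) * uu P ((m : ℤ) - n) =
      uu P ((m : ℤ) + 1) * uu P ((m : ℤ) - 1) * uu P n ^ 2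
      - uu P ((n : ℤ) + 1) * uu P ((n : ℤ) - 1) * uu P m ^ 2 := by
    intro m n hn hnm
    have := congrArg (Polynomial.eval (xc P)) (poly_rel hΔ m n hn hnm)
    rw [eval_sub, eval_mul (p := _ * _ * _), eval_mul (p := _ * _ * _)] at this
    rw [uu_mul hP _ _ (by rw [Int.even_add, Int.even_sub]),
      uu_mul hP _ _ (by rw [Int.even_add_one, Int.even_sub_one]),
      uu_mul hP _ _ (by rw [Int.even_add_one, Int.even_sub_one]), uu_sq hP, uu_sq hP]
    rw [← this, eval_mul]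
  rcases le_total n m with h | h
  · exact key m n hn h
  · have := key n m hm h
    rw [add_comm (m : ℤ) n, ← neg_sub (n : ℤ) m, uu_neg]
    linear_combination -this

end Fermat.Agent.DivPoly
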