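import Fermat.Agent.DivPoly.Card
import Fermat.Prelude.Def_FLTPrelim_GaloisRep
import Mathlib.Algebra.Field.ZMod
import Mathlib.LinearAlgebra.Dimension.Finrank
import Mathlib.LinearAlgebra.FiniteDimensional.Basic
import Mathlib.FieldTheory.Finiteness
import Mathlib.FieldTheory.IsAlgClosed.AlgebraicClosure

/-!
# The mod `p` representation space is 2-dimensional
-/

set_option autoImplicit false

namespace Fermat.Agent.DivPoly

open WeierstrassCurve WeierstrassCurve.Affine WeierstrassCurve.Affine.Point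

section

variable {R : Type*} {K : Type*} [CommRing R] [Field K] [DecidableEq K] [CharZero K]
  [IsAlgClosed K] [Algebra R K] (W : Affine R)

/-- `#E[n] = n²` for a Weierstrass curve base changed to `K`. -/
theorem natCard_torsionBy_baseChange (hΔ : (W⁄K).Δ ≠ 0) (n : ℕ) (hn : n ≠ 0) :
    Nat.card (Submodule.torsionBy ℤ (W⁄K).Point (n : ℤ)) = n ^ 2 :=
  natCard_torsionBy hΔ n hn

theorem finite_torsionBy_baseChange (hΔ : (W⁄K).Δ ≠ 0) (n : ℕ) (hn : n ≠ 0) :
    Finite (Submodule.torsionBy ℤ (W⁄K).Point (n : ℤ)) :=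
  Nat.finite_of_card_ne_zero (by rw [natCard_torsionBy_baseChange W hΔ n hn]; positivity)

/-- `dim E[p] = 2` over `ZMod p` (with the `ZMod p`-module structure of the Prelude). -/
theorem finrank_torsionBy_baseChange (hΔ : (W⁄K).Δ ≠ 0) (p : ℕ) [Fact p.Prime] :
    Module.finrank (ZMod p) (Submodule.torsionBy ℤ (W⁄K).Point (p : ℤ)) = 2 := by
  have hp : p ≠ 0 := (Fact.out : p.Prime).ne_zero
  have := finite_torsionBy_baseChange W hΔ p hp
  have h1 := natCard_torsionBy_baseChange W hΔ p hp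
  have h2 := Module.natCard_eq_pow_finrank (K := ZMod p)
    (V := Submodule.torsionBy ℤ (W⁄K).Point (p : ℤ))
  rw [h1, Nat.card_zmod] at h2
  exact (Nat.pow_right_injective (Fact.out : p.Prime).two_le h2).symm

theorem nontrivial_torsionBy_baseChange (hΔ : (W⁄K).Δ ≠ 0) (n : ℕ) (hn : 2 ≤ n) :
    Nontrivial (Submodule.torsionBy ℤ (W⁄K).Point (n : ℤ)) := by
  have := finite_torsionBy_baseChange W hΔ n (by omega)
  rw [← Finite.one_lt_card_iff_nontrivial, natCard_torsionBy_baseChange W hΔ n (by omega)]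
  exact Nat.one_lt_pow (by norm_num) hn

/-- A submodule of `E[p]` that is neither `⊥` nor `⊤` has exactly `p` elements. -/
theorem natCard_submodule (hΔ : (W⁄K).Δ ≠ 0) (p : ℕ) [Fact p.Prime]
    (N : Submodule (ZMod p) (Submodule.torsionBy ℤ (W⁄K).Point (p : ℤ)))
    (h1 : N ≠ ⊥) (h2 : N ≠ ⊤) : Module.finrank (ZMod p) N = 1 ∧ Nat.card N = p := by
  have hp : p ≠ 0 := (Fact.out : p.Prime).ne_zero
  have := finite_torsionBy_baseChange W hΔ p hp
  have : Module.Finite (ZMod p) (Submodule.torsionBy ℤ (W⁄K).Point (p : ℤ)) :=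
    Module.Finite.of_finite
  have h3 := finrank_torsionBy_baseChange W hΔ p
  have h4 : Module.finrank (ZMod p) N < 2 := by
    rw [← h3]; exact Submodule.finrank_lt h2
  have h5 : Module.finrank (ZMod p) N ≠ 0 := by
    intro h; exact h1 (Submodule.finrank_eq_zero.mp h)
  have h6 : Module.finrank (ZMod p) N = 1 := by omega
  refine ⟨h6, ?_⟩
  have h7 := Module.natCard_eq_pow_finrank (K := ZMod p) (V := N)
  rw [h7, Nat.card_zmod, h6, pow_one]

end

end Fermat.Agent.DivPoly
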