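import Fermat.Agent.DivPoly.XCoord

/-!
# Division polynomials evaluated at a point

`uu P n` is the value at `P` of the `n`-th division polynomial `ψₙ`.  We show that for a
point `P` with `k • P ≠ 0` for `1 ≤ k ≤ n` one has `uu P n ≠ 0` and
`(x(P) - x(nP)) ψₙ(P)² = ψₙ₊₁(P) ψₙ₋₁(P)`, and that `ψ_N(P) = 0` if `N` is the order of `P`.
-/

set_option autoImplicit false

namespace Fermat.Agent.DivPoly

open WeierstrassCurve WeierstrassCurve.Affine WeierstrassCurve.Affine.Point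

variable {F : Type*} [Field F] {W : Affine F}

/-- The value of the `n`-th division polynomial at `P`. -/
noncomputable def uu (P : W.Point) (n : ℤ) : F :=
  normEDS (psi2 P) (W.Ψ₃.eval (xc P)) (W.preΨ₄.eval (xc P)) n

@[simp] lemma uu_zero (P : W.Point) : uu P 0 = 0 := by simp [uu]
@[simp] lemma uu_one (P : W.Point) : uu P 1 = 1 := by simp [uu]
@[simp] lemma uu_two (P : W.Point) : uu P 2 = psi2 P := by simp [uu]
@[simp] lemma uu_three (P : W.Point) : uu P 3 = W.Ψ₃.eval (xc P) := by simp [uu]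
@[simp] lemma uu_four (P : W.Point) : uu P 4 = W.preΨ₄.eval (xc P) * psi2 P := by simp [uu]
@[simp] lemma uu_neg (P : W.Point) (n : ℤ) : uu P (-n) = - uu P n := by simp [uu]

lemma uu_odd (P : W.Point) (m : ℤ) : uu P (2 * m + 1) =
    uu P (m + 2) * uu P m ^ 3 - uu P (m - 1) * uu P (m + 1) ^ 3 := normEDS_odd ..

lemma uu_even (P : W.Point) (m : ℤ) : uu P (2 * m) * psi2 P =
    uu P (m - 1) ^ 2 * uu P m * uu P (m + 2) - uu P (m - 2) * uu P m * uu P (m + 1) ^ 2 :=
  normEDS_even ..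

/-- Link with the univariate polynomials `preΨ`. -/
lemma uu_eq {P : W.Point} (hP : P ≠ 0) (n : ℤ) :
    uu P n = (W.preΨ n).eval (xc P) * if Even n then psi2 P else 1 := by
  have h2 : (W.Ψ₂Sq ^ 2).eval (xc P) = psi2 P ^ 4 := by
    have := psi2_sq hP
    simp only [Ψ₂Sq, Polynomial.eval_add, Polynomial.eval_mul, Polynomial.eval_pow,
      Polynomial.eval_X, Polynomial.eval_C]
    linear_combination -(psi2 P ^ 2 + (4 * xc P ^ 3 + W.b₂ * xc P ^ 2 + 2 * W.b₄ * xc P + W.b₆))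
      * this
  rw [uu, normEDS, preΨ, ← Polynomial.coe_evalRingHom, map_preNormEDS]
  simp only [Polynomial.coe_evalRingHom, h2]

variable [DecidableEq F]

/-- The basic relation between `x(nP)` and the division polynomials. -/
def AA (P : W.Point) (n : ℤ) : Prop :=
  (xc P - xc (n • P)) * uu P n ^ 2 = uu P (n + 1) * uu P (n - 1)

lemma AA_one (P : W.Point) : AA P 1 := by simp [AA]

lemma uu_odd' {P : W.Point} {k : ℤ} (h1 : AA P k) (h2 : AA P (k + 1)) :
    uu P (2 * k + 1) = uu P k ^ 2 * uu P (k + 1) ^ 2 * (xc (k • P) - xc ((k + 1) • P)) := by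
  rw [AA] at h1 h2
  rw [uu_odd]
  rw [show k + 1 + 1 = k + 2 by ring, show k + 1 - 1 = k by ring] at h2
  linear_combination uu P (k + 1) ^ 2 * h1 - uu P k ^ 2 * h2

lemma uu_even' {P : W.Point} {k : ℤ} (h1 : AA P (k - 1)) (h2 : AA P (k + 1)) :
    uu P (2 * k) * psi2 P =
      uu P (k - 1) ^ 2 * uu P (k + 1) ^ 2 * (xc ((k - 1) • P) - xc ((k + 1) • P)) := by
  rw [AA] at h1 h2
  rw [uu_even]
  rw [show k + 1 + 1 = k + 2 by ring, show k + 1 - 1 = k by ring] at h2
  rw [show k - 1 + 1 = k by ring, show k - 1 - 1 = k - 2 by ring] at h1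
  linear_combination uu P (k + 1) ^ 2 * h1 - uu P (k - 1) ^ 2 * h2

lemma BB {P : W.Point} (hP : P ≠ 0) (hpsi : psi2 P ≠ 0) {k : ℤ} (hk : k • P ≠ 0)
    (hx : xc (k • P) ≠ xc P) (h0 : AA P k) (h1 : AA P (k - 1)) (h2 : AA P (k + 1)) :
    psi2 (k • P) * uu P k ^ 4 = uu P (2 * k) := by
  have e := uu_even' h1 h2
  have d := xc_add_sub_xc_sub hk hP hx
  have e1 : k • P + P = (k + 1) • P := by rw [add_zsmul, one_zsmul]
  have e2 : k • P - P = (k - 1) • P := by rw [sub_zsmul, one_zsmul, sub_eq_add_neg]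
  rw [e1, e2] at d
  have hx' := sub_ne_zero.mpr hx
  apply mul_right_cancel₀ hpsi
  apply mul_right_cancel₀ (pow_ne_zero 2 hx')
  rw [e]
  rw [AA] at h0
  have h0' : (xc P - xc (k • P)) ^ 2 * uu P k ^ 4 = uu P (k + 1) ^ 2 * uu P (k - 1) ^ 2 := by
    rw [← mul_pow, ← h0]; ring
  have : psi2 (k • P) * uu P k ^ 4 * psi2 P * (xc (k • P) - xc P) ^ 2 =
      psi2 (k • P) * psi2 P * ((xc P - xc (k • P)) ^ 2 * uu P k ^ 4) := by ring
  rw [this, h0']
  linear_combination (uu P (k + 1) ^ 2 * uu P (k - 1) ^ 2) * d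

lemma AA_two {P : W.Point} (hP : P ≠ 0) (h2 : P + P ≠ 0) : AA P 2 := by
  have h := xc_two hP h2
  have e := psi2_sq hP
  rw [AA, two_zsmul, uu_two, show (2 : ℤ) + 1 = 3 by norm_num, show (2 : ℤ) - 1 = 1 by norm_num,
    uu_three, uu_one]
  simp only [Ψ₃, Polynomial.eval_add, Polynomial.eval_mul, Polynomial.eval_pow,
    Polynomial.eval_X, Polynomial.eval_C, Polynomial.eval_ofNat]
  linear_combination -h + xc P * e

lemma AA_three {P : W.Point} (hP : P ≠ 0) (h2 : P + P ≠ 0) (hx : xc (P + P) ≠ xc P) :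
    AA P 3 := by
  have h := AA_two hP h2
  rw [AA, show (2 : ℤ) + 1 = 3 by norm_num, show (2 : ℤ) - 1 = 1 by norm_num, uu_two, uu_one,
    two_zsmul, mul_one] at h
  have d := xc_add_sub_xc_sub h2 hP hx
  have e := psi2_two hP h2
  have e3 : P + P + P = (3 : ℤ) • P := by
    rw [show (3 : ℤ) = 2 + 1 by norm_num, add_zsmul, two_zsmul, one_zsmul]
  rw [e3, add_sub_cancel_right] at d
  rw [AA, show (3 : ℤ) + 1 = 4 by norm_num, show (3 : ℤ) - 1 = 2 by norm_num, ← h, uu_two,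
    uu_four, ← e]
  linear_combination (- psi2 P ^ 4) * d

lemma AA_even {P : W.Point} (hP : P ≠ 0) (hpsi : psi2 P ≠ 0) {k : ℤ} (hk : k • P ≠ 0)
    (h2k : k • P + k • P ≠ 0)
    (hx : xc (k • P) ≠ xc P) (h0 : AA P k) (h1 : AA P (k - 1)) (h2 : AA P (k + 1))
    (hu0 : uu P k ≠ 0) :
    uu P (2 * k) ≠ 0 ∧ AA P (2 * k) := by
  have B := BB hP hpsi hk hx h0 h1 h2
  have hs : psi2 (k • P) ≠ 0 := psi2_ne_zero hk h2k
  refine ⟨by rw [← B]; exact mul_ne_zero hs (pow_ne_zero 4 hu0), ?_⟩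
  have o1 := uu_odd' h0 h2
  have o2 := uu_odd' (k := k - 1) h1 (by rwa [sub_add_cancel])
  rw [sub_add_cancel, show 2 * (k - 1) + 1 = 2 * k - 1 by ring] at o2
  have dup := xc_two hk h2k
  have s1 := xc_add_add_xc_sub hk hP hx
  have s2 := xc_add_mul_xc_sub hk hP hx
  have e1 : k • P + P = (k + 1) • P := by rw [add_zsmul, one_zsmul]
  have e2 : k • P - P = (k - 1) • P := by rw [sub_zsmul, one_zsmul, sub_eq_add_neg]
  have e3 : k • P + k • P = (2 * k) • P := by rw [two_mul, add_zsmul]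
  have q := psi2_sq hk
  rw [e1, e2] at s1 s2
  rw [e3] at dup
  rw [AA, o1, o2, ← B]
  rw [AA] at h0
  have h0' : (xc P - xc (k • P)) ^ 2 * uu P k ^ 4 = uu P (k + 1) ^ 2 * uu P (k - 1) ^ 2 := by
    rw [← mul_pow, ← h0]; ring
  -- (D - x) s² = (c - b)(a - b)(b - x)²
  have key : (xc ((2 * k) • P) - xc P) * psi2 (k • P) ^ 2 =
      (xc ((k + 1) • P) - xc (k • P)) * (xc ((k - 1) • P) - xc (k • P)) *
        (xc (k • P) - xc P) ^ 2 := by
    linear_combination dup - xc P * q - s2 + xc (k • P) * s1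
  linear_combination (- uu P k ^ 8) * key +
    (-(xc ((k - 1) • P) - xc (k • P)) * (xc ((k + 1) • P) - xc (k • P)) * uu P k ^ 4) * h0'

lemma AA_odd {P : W.Point} {k : ℤ} (hk : k • P ≠ 0) (hk1 : (k + 1) • P ≠ 0)
    (hx : xc ((k + 1) • P) ≠ xc (k • P)) (h0 : AA P k) (h1 : AA P (k + 1))
    (B0 : psi2 (k • P) * uu P k ^ 4 = uu P (2 * k))
    (B1 : psi2 ((k + 1) • P) * uu P (k + 1) ^ 4 = uu P (2 * (k + 1)))
    (hu0 : uu P k ≠ 0) (hu1 : uu P (k + 1) ≠ 0) :
    uu P (2 * k + 1) ≠ 0 ∧ AA P (2 * k + 1) := by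
  have o1 := uu_odd' h0 h1
  refine ⟨?_, ?_⟩
  · rw [o1]
    exact mul_ne_zero (mul_ne_zero (pow_ne_zero 2 hu0) (pow_ne_zero 2 hu1))
      (sub_ne_zero.mpr (Ne.symm hx))
  have d := xc_add_sub_xc_sub hk1 hk hx
  have e1 : (k + 1) • P + k • P = (2 * k + 1) • P := by rw [← add_zsmul]; congr 1; ring
  have e2 : (k + 1) • P - k • P = P := by rw [add_zsmul, one_zsmul]; abel
  rw [e1, e2] at d
  rw [AA, show 2 * k + 1 + 1 = 2 * (k + 1) by ring, show 2 * k + 1 - 1 = 2 * k by ring,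
    ← B0, ← B1, o1]
  linear_combination (- uu P k ^ 4 * uu P (k + 1) ^ 4) * d

/-- The main induction. -/
theorem uu_ne_zero_and_AA {P : W.Point} (n : ℕ) (hn : 1 ≤ n)
    (h : ∀ k : ℕ, 1 ≤ k → k ≤ n → k • P ≠ 0) : uu P n ≠ 0 ∧ AA P n := by
  induction n using Nat.strong_induction_on with
  | _ n ih =>
    have hP : P ≠ 0 := by simpa using h 1 le_rfl hn
    -- auxiliary facts
    have hz : ∀ k : ℕ, 1 ≤ k → k ≤ n → (k : ℤ) • P ≠ 0 := fun k h1 h2 => by
      rw [natCast_zsmul]; exact h k h1 h2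
    have hxne : ∀ a b : ℕ, b < a → 1 ≤ b → a + b ≤ n → xc ((a : ℤ) • P) ≠ xc ((b : ℤ) • P) := by
      intro a b hab hb hn'
      apply xc_ne (hz a (by omega) (by omega)) (hz b hb (by omega))
      · intro e
        apply hz (a - b) (by omega) (by omega)
        rw [Nat.cast_sub hab.le, sub_zsmul, e, add_neg_cancel]
      · intro e
        apply hz (a + b) (by omega) (by omega)
        rw [Nat.cast_add, add_zsmul, e, neg_add_cancel]
    by_cases h1 : n = 1
    · subst h1; simpa using AA_one P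
    by_cases h2 : n = 2
    · subst h2
      have h2P : P + P ≠ 0 := by rw [← two_nsmul]; exact h 2 (by omega) le_rfl
      exact ⟨by simpa using psi2_ne_zero hP h2P, by simpa using AA_two hP h2P⟩
    have h2P : P + P ≠ 0 := by rw [← two_nsmul]; exact h 2 (by omega) (by omega)
    have hpsi := psi2_ne_zero hP h2P
    by_cases h3 : n = 3
    · subst h3
      have hx : xc (P + P) ≠ xc P := by
        have := hxne 2 1 (by omega) le_rfl le_rfl
        simpa [two_zsmul] using this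
      refine ⟨?_, by simpa using AA_three hP h2P hx⟩
      have h := AA_two hP h2P
      rw [AA, show (2 : ℤ) + 1 = 3 by norm_num, show (2 : ℤ) - 1 = 1 by norm_num, uu_two, uu_one,
        two_zsmul, mul_one] at h
      rw [show ((3 : ℕ) : ℤ) = 3 by norm_num, ← h]
      exact mul_ne_zero (sub_ne_zero.mpr hx.symm) (pow_ne_zero 2 hpsi)
    have ih' : ∀ m : ℕ, m < n → 1 ≤ m → uu P m ≠ 0 ∧ AA P m := fun m hm hm1 =>
      ih m hm hm1 fun k hk1 hk2 => h k hk1 (by omega)
    obtain ⟨k, rfl | rfl⟩ : ∃ k, n = 2 * k ∨ n = 2 * k + 1 := ⟨n / 2, by omega⟩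
    · have hk : 2 ≤ k := by omega
      obtain ⟨u0, a0⟩ := ih' k (by omega) (by omega)
      obtain ⟨u1, a1⟩ := ih' (k - 1) (by omega) (by omega)
      obtain ⟨u2, a2⟩ := ih' (k + 1) (by omega) (by omega)
      rw [Nat.cast_sub (by omega), Nat.cast_one] at a1
      rw [Nat.cast_add, Nat.cast_one] at a2
      have := AA_even hP hpsi (hz k (by omega) (by omega))
        (by rw [← add_zsmul, ← two_mul]; exact_mod_cast hz (2 * k) (by omega) le_rfl)
        (by simpa using hxne k 1 (by omega) le_rfl (by omega)) a0 a1 a2 u0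
      rw [Nat.cast_mul, Nat.cast_ofNat]
      exact this
    · have hk : 2 ≤ k := by omega
      obtain ⟨u0, a0⟩ := ih' k (by omega) (by omega)
      obtain ⟨u1, a1⟩ := ih' (k - 1) (by omega) (by omega)
      obtain ⟨u2, a2⟩ := ih' (k + 1) (by omega) (by omega)
      obtain ⟨u3, a3⟩ := ih' (k + 2) (by omega) (by omega)
      have hx1 := hxne k 1 (by omega) le_rfl (by omega)
      have hx2 := hxne (k + 1) 1 (by omega) le_rfl (by omega)
      have hx3 := hxne (k + 1) k (by omega) (by omega) (by omega)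
      have hz1 := hz (k + 1) (by omega) (by omega)
      rw [Nat.cast_sub (by omega), Nat.cast_one] at a1
      rw [Nat.cast_add, Nat.cast_one] at a2 u2
      rw [Nat.cast_add, Nat.cast_ofNat] at a3
      rw [Nat.cast_one, one_zsmul] at hx1 hx2
      rw [Nat.cast_add, Nat.cast_one] at hx2 hx3 hz1
      have B0 := BB hP hpsi (hz k (by omega) (by omega)) hx1 a0 a1 a2
      have B1 := BB hP hpsi hz1 hx2 a2 (by rwa [add_sub_cancel_right])
        (by rwa [show (k : ℤ) + 1 + 1 = k + 2 by ring])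
      have := AA_odd (hz k (by omega) (by omega)) hz1 hx3 a0 a2 B0 B1 u0 u2
      rw [Nat.cast_add, Nat.cast_mul, Nat.cast_ofNat, Nat.cast_one]
      exact this

/-- If `P` has order exactly `N` then `ψ_N(P) = 0`. -/
theorem uu_eq_zero_of_order {P : W.Point} (hP : P ≠ 0) (N : ℕ) (hN : 2 ≤ N)
    (h : ∀ k : ℕ, 1 ≤ k → k < N → k • P ≠ 0) (h0 : N • P = 0) : uu P N = 0 := by
  have hA : ∀ k : ℕ, 1 ≤ k → k < N → uu P k ≠ 0 ∧ AA P k := fun k h1 h2 =>
    uu_ne_zero_and_AA k h1 fun j hj1 hj2 => h j hj1 (by omega)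
  have hz : ∀ k : ℕ, 1 ≤ k → k < N → (k : ℤ) • P ≠ 0 := fun k h1 h2 => by
      rw [natCast_zsmul]; exact h k h1 h2
  by_cases h2 : N = 2
  · subst h2
    rw [show ((2 : ℕ) : ℤ) = 2 by norm_num, uu_two]
    exact psi2_eq_zero hP (by rwa [← two_nsmul])
  have h2P : P + P ≠ 0 := by rw [← two_nsmul]; exact h 2 (by omega) (by omega)
  have hpsi := psi2_ne_zero hP h2P
  by_cases h3 : N = 3
  · subst h3
    have h := AA_two hP h2P
    rw [AA, show (2 : ℤ) + 1 = 3 by norm_num, show (2 : ℤ) - 1 = 1 by norm_num, uu_two, uu_one,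
      two_zsmul, mul_one] at h
    rw [show ((3 : ℕ) : ℤ) = 3 by norm_num, ← h]
    have : P + P = -P := by
      rw [eq_neg_iff_add_eq_zero]
      rw [show (3 : ℕ) = 2 + 1 by norm_num, add_nsmul, two_nsmul, one_nsmul] at h0
      exact h0
    rw [this, xc_neg, sub_self, zero_mul]
  obtain ⟨k, rfl | rfl⟩ : ∃ k, N = 2 * k ∨ N = 2 * k + 1 := ⟨N / 2, by omega⟩
  · obtain ⟨u0, a0⟩ := hA k (by omega) (by omega)
    obtain ⟨u1, a1⟩ := hA (k - 1) (by omega) (by omega)
    obtain ⟨u2, a2⟩ := hA (k + 1) (by omega) (by omega)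
    rw [Nat.cast_sub (by omega), Nat.cast_one] at a1
    rw [Nat.cast_add, Nat.cast_one] at a2
    have hkz := hz k (by omega) (by omega)
    have hx : xc ((k : ℤ) • P) ≠ xc P := by
      apply xc_ne hkz hP
      · intro e
        apply hz (k - 1) (by omega) (by omega)
        rw [Nat.cast_sub (by omega), sub_zsmul, e, Nat.cast_one, one_zsmul, add_neg_cancel]
      · intro e
        apply hz (k + 1) (by omega) (by omega)
        rw [Nat.cast_add, add_zsmul, e, Nat.cast_one, one_zsmul, neg_add_cancel]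
    have B := BB hP hpsi hkz hx a0 a1 a2
    rw [Nat.cast_mul, Nat.cast_ofNat, ← B, psi2_eq_zero hkz, zero_mul]
    rw [← add_zsmul, ← two_mul]
    exact_mod_cast h0
  · obtain ⟨u0, a0⟩ := hA k (by omega) (by omega)
    obtain ⟨u2, a2⟩ := hA (k + 1) (by omega) (by omega)
    rw [Nat.cast_add, Nat.cast_one] at a2
    have := uu_odd' a0 a2
    rw [Nat.cast_add, Nat.cast_mul, Nat.cast_ofNat, Nat.cast_one, this]
    have : ((k : ℤ) + 1) • P = - ((k : ℤ) • P) := by
      rw [eq_neg_iff_add_eq_zero, ← add_zsmul, ← h0, ← natCast_zsmul]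
      congr 1; push_cast; ring
    rw [this, xc_neg, sub_self, mul_zero]

end Fermat.Agent.DivPoly
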