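import Mathlib.AlgebraicGeometry.EllipticCurve.DivisionPolynomial.Degree
import Mathlib.Tactic.FieldSimp
import Mathlib.Tactic.LinearCombination

/-!
# x-coordinates of sums of points on a Weierstrass curve

For a Weierstrass curve over a field, the classical formulas for
`x(P+Q) + x(P-Q)`, `x(P+Q) * x(P-Q)`, `x(P+Q) - x(P-Q)` and `x(2P)`.
-/

set_option autoImplicit false

namespace Fermat.Agent.DivPoly

open WeierstrassCurve WeierstrassCurve.Affine WeierstrassCurve.Affine.Point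

variable {F : Type*} [Field F] {W : Affine F}

/-- The `x`-coordinate of a point (`0` at the point at infinity). -/
def xc : W.Point → F
  | .zero => 0
  | .some x _ _ => x

/-- The `y`-coordinate of a point (`0` at the point at infinity). -/
def yc : W.Point → F
  | .zero => 0
  | .some _ y _ => y

/-- The value `2y + a₁x + a₃` at a point. -/
def psi2 (P : W.Point) : F := 2 * yc P + W.a₁ * xc P + W.a₃

@[simp] lemma xc_some {x y : F} (h : W.Nonsingular x y) : xc (.some x y h) = x := rfl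
@[simp] lemma yc_some {x y : F} (h : W.Nonsingular x y) : yc (.some x y h) = y := rfl
@[simp] lemma psi2_some {x y : F} (h : W.Nonsingular x y) :
    psi2 (.some x y h) = 2 * y + W.a₁ * x + W.a₃ := rfl

lemma exists_some {P : W.Point} (hP : P ≠ 0) :
    ∃ h : W.Nonsingular (xc P) (yc P), P = .some (xc P) (yc P) h := by
  cases P with
  | zero => exact absurd rfl hP
  | some x y h => exact ⟨h, rfl⟩

lemma equation {P : W.Point} (hP : P ≠ 0) :
    yc P ^ 2 + W.a₁ * xc P * yc P + W.a₃ * yc P =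
      xc P ^ 3 + W.a₂ * xc P ^ 2 + W.a₄ * xc P + W.a₆ := by
  obtain ⟨h, -⟩ := exists_some hP
  exact (equation_iff ..).mp h.1

@[simp] lemma xc_neg (P : W.Point) : xc (-P) = xc P := by
  cases P <;> rfl

lemma yc_neg {P : W.Point} (hP : P ≠ 0) : yc (-P) = -yc P - W.a₁ * xc P - W.a₃ := by
  cases P with
  | zero => exact absurd rfl hP
  | some x y h => rfl

lemma psi2_neg {P : W.Point} (hP : P ≠ 0) : psi2 (-P) = -psi2 P := by
  rw [psi2, yc_neg hP, xc_neg, psi2]; ring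

lemma eq_or_eq_neg {P Q : W.Point} (hP : P ≠ 0) (hQ : Q ≠ 0) (h : xc P = xc Q) :
    P = Q ∨ P = -Q := by
  obtain ⟨hP', hP⟩ := exists_some hP
  obtain ⟨hQ', hQ⟩ := exists_some hQ
  rw [hP, hQ]
  exact (X_eq_iff (h₁ := hP') (h₂ := hQ')).mp h

lemma xc_ne {P Q : W.Point} (hP : P ≠ 0) (hQ : Q ≠ 0) (h1 : P ≠ Q) (h2 : P ≠ -Q) :
    xc P ≠ xc Q := fun h => (eq_or_eq_neg hP hQ h).elim h1 h2

lemma psi2_sq {P : W.Point} (hP : P ≠ 0) :
    psi2 P ^ 2 = 4 * xc P ^ 3 + W.b₂ * xc P ^ 2 + 2 * W.b₄ * xc P + W.b₆ := by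
  have h := equation hP
  simp only [psi2, b₂, b₄, b₆]
  linear_combination 4 * h

lemma psi2_eq_zero_iff {P : W.Point} (hP : P ≠ 0) : psi2 P = 0 ↔ P = -P := by
  cases P with
  | zero => exact absurd rfl hP
  | some x y h =>
    rw [neg_some, psi2_some, Point.some.injEq, negY]
    constructor
    · intro h; exact ⟨rfl, by linear_combination h⟩
    · rintro ⟨-, h⟩; linear_combination h

variable [DecidableEq F]

lemma psi2_ne_zero {P : W.Point} (hP : P ≠ 0) (h2 : P + P ≠ 0) : psi2 P ≠ 0 := by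
  rw [Ne, psi2_eq_zero_iff hP]
  intro h
  exact h2 (by nth_rw 2 [h]; exact add_neg_cancel P)

lemma psi2_eq_zero {P : W.Point} (hP : P ≠ 0) (h2 : P + P = 0) : psi2 P = 0 := by
  rw [psi2_eq_zero_iff hP]
  exact eq_neg_of_add_eq_zero_left h2

lemma xc_add {P Q : W.Point} (hP : P ≠ 0) (hQ : Q ≠ 0) (h : xc P ≠ xc Q) :
    xc (P + Q) * (xc P - xc Q) ^ 2 =
      (yc P - yc Q) ^ 2 + W.a₁ * (yc P - yc Q) * (xc P - xc Q)
        - (W.a₂ + xc P + xc Q) * (xc P - xc Q) ^ 2 := by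
  obtain ⟨hP', hP⟩ := exists_some hP
  obtain ⟨hQ', hQ⟩ := exists_some hQ
  have key : xc (P + Q) = W.addX (xc P) (xc Q) (W.slope (xc P) (xc Q) (yc P) (yc Q)) := by
    conv_lhs => rw [hP, hQ]
    rw [add_of_X_ne h]; rfl
  have h' := sub_ne_zero.mpr h
  rw [key, slope_of_X_ne h, addX]
  field_simp
  ring

lemma yc_add {P Q : W.Point} (hP : P ≠ 0) (hQ : Q ≠ 0) (h : xc P ≠ xc Q) :
    (yc (P + Q) + W.a₁ * xc (P + Q) + W.a₃ + yc P) * (xc P - xc Q) =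
      - (yc P - yc Q) * (xc (P + Q) - xc P) := by
  obtain ⟨hP', hP⟩ := exists_some hP
  obtain ⟨hQ', hQ⟩ := exists_some hQ
  have key : xc (P + Q) = W.addX (xc P) (xc Q) (W.slope (xc P) (xc Q) (yc P) (yc Q)) := by
    conv_lhs => rw [hP, hQ]
    rw [add_of_X_ne h]; rfl
  have key2 : yc (P + Q) = W.addY (xc P) (xc Q) (yc P)
      (W.slope (xc P) (xc Q) (yc P) (yc Q)) := by
    conv_lhs => rw [hP, hQ]
    rw [add_of_X_ne h]; rfl
  have h' := sub_ne_zero.mpr h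
  rw [key2, addY, negAddY, negY, ← key, slope_of_X_ne h]
  field_simp
  ring

/-- `x(P+Q) + x(P-Q)`. -/
lemma xc_add_add_xc_sub {P Q : W.Point} (hP : P ≠ 0) (hQ : Q ≠ 0) (h : xc P ≠ xc Q) :
    (xc (P + Q) + xc (P - Q)) * (xc P - xc Q) ^ 2 =
      2 * xc P * xc Q * (xc P + xc Q) + W.b₂ * xc P * xc Q + W.b₄ * (xc P + xc Q) + W.b₆ := by
  have h1 := xc_add hP hQ h
  have h2 := xc_add hP (neg_ne_zero.mpr hQ) (by rwa [xc_neg])
  rw [← sub_eq_add_neg, xc_neg, yc_neg hQ] at h2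
  have e1 := equation hP
  have e2 := equation hQ
  simp only [b₂, b₄, b₆]
  linear_combination h1 + h2 + 2 * e1 + 2 * e2

/-- `x(P+Q) - x(P-Q)`. -/
lemma xc_add_sub_xc_sub {P Q : W.Point} (hP : P ≠ 0) (hQ : Q ≠ 0) (h : xc P ≠ xc Q) :
    (xc (P + Q) - xc (P - Q)) * (xc P - xc Q) ^ 2 = - (psi2 P * psi2 Q) := by
  have h1 := xc_add hP hQ h
  have h2 := xc_add hP (neg_ne_zero.mpr hQ) (by rwa [xc_neg])
  rw [← sub_eq_add_neg, xc_neg, yc_neg hQ] at h2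
  simp only [psi2]
  linear_combination h1 - h2

/-- `x(P+Q) * x(P-Q)`. -/
lemma xc_add_mul_xc_sub {P Q : W.Point} (hP : P ≠ 0) (hQ : Q ≠ 0) (h : xc P ≠ xc Q) :
    xc (P + Q) * xc (P - Q) * (xc P - xc Q) ^ 2 =
      (xc P * xc Q) ^ 2 - W.b₄ * (xc P * xc Q) - W.b₆ * (xc P + xc Q) - W.b₈ := by
  have h' := sub_ne_zero.mpr h
  have h3 := xc_add hP hQ h
  have h4 := xc_add hP (neg_ne_zero.mpr hQ) (by rwa [xc_neg])
  rw [← sub_eq_add_neg, xc_neg, yc_neg hQ] at h4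
  have e1 := equation hP
  have e2 := equation hQ
  apply mul_right_cancel₀ (pow_ne_zero 2 h')
  have : xc (P + Q) * xc (P - Q) * (xc P - xc Q) ^ 2 * (xc P - xc Q) ^ 2 =
    (xc (P + Q) * (xc P - xc Q) ^ 2) * (xc (P - Q) * (xc P - xc Q) ^ 2) := by ring
  rw [this, h3, h4]
  generalize xc P = x1 at *
  generalize xc Q = x2 at *
  generalize yc P = y1 at *
  generalize yc Q = y2 at *
  simp only [b₄, b₆, b₈]
  generalize W.a₁ = a1 at *
  generalize W.a₂ = a2 at *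
  generalize W.a₃ = a3 at *
  generalize W.a₄ = a4 at *
  generalize W.a₆ = a6 at *
  linear_combination (y1^2 + y1*x1*a1 + y1*a3 - 2*y2^2 - 2*y2*x2*a1 - 2*y2*a3 - x1^3 + 2*x1^2*x2
      - x1^2*a2 + 2*x1*x2^2 + x1*x2*a1^2 + 4*x1*x2*a2 + x1*a1*a3 + x1*a4 - 2*x2^3 - x2^2*a1^2
      - 2*x2^2*a2 - x2*a1*a3 + a6) * e1 +
    (y2^2 + y2*x2*a1 + y2*a3 - 4*x1^3 + 2*x1^2*x2 - x1^2*a1^2 - 4*x1^2*a2 + 2*x1*x2^2
      + x1*x2*a1^2 + 4*x1*x2*a2 - x1*a1*a3 - 2*x1*a4 - x2^3 - x2^2*a2 + x2*a1*a3 + x2*a4 - a6) * e2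

lemma exists_slope_two {P : W.Point} (hP : P ≠ 0) (h2 : P + P ≠ 0) :
    ∃ l : F, l * psi2 P = 3 * xc P ^ 2 + 2 * W.a₂ * xc P + W.a₄ - W.a₁ * yc P ∧
      xc (P + P) = l ^ 2 + W.a₁ * l - W.a₂ - xc P - xc P ∧
      yc (P + P) = -(l * (xc (P + P) - xc P) + yc P) - W.a₁ * xc (P + P) - W.a₃ := by
  have hpsi := psi2_ne_zero hP h2
  obtain ⟨hP', hPe⟩ := exists_some hP
  have hy : yc P ≠ W.negY (xc P) (yc P) := by
    intro h; apply hpsi; rw [psi2]; rw [negY] at h; linear_combination h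
  have key : xc (P + P) = W.addX (xc P) (xc P) (W.slope (xc P) (xc P) (yc P) (yc P)) := by
    conv_lhs => rw [hPe]
    rw [add_self_of_Y_ne hy]; rfl
  have key2 : yc (P + P) = W.addY (xc P) (xc P) (yc P)
      (W.slope (xc P) (xc P) (yc P) (yc P)) := by
    conv_lhs => rw [hPe]
    rw [add_self_of_Y_ne hy]; rfl
  refine ⟨W.slope (xc P) (xc P) (yc P) (yc P), ?_, ?_, ?_⟩
  · have hp2 : psi2 P = yc P - W.negY (xc P) (yc P) := by rw [psi2, negY]; ring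
    rw [slope_of_Y_ne rfl hy, hp2, div_mul_cancel₀]
    rw [← hp2]; exact hpsi
  · rw [key, addX]
  · rw [key2, addY, negAddY, negY, ← key]

/-- Duplication formula for the `x`-coordinate. -/
lemma xc_two {P : W.Point} (hP : P ≠ 0) (h2 : P + P ≠ 0) :
    xc (P + P) * psi2 P ^ 2 =
      xc P ^ 4 - W.b₄ * xc P ^ 2 - 2 * W.b₆ * xc P - W.b₈ := by
  obtain ⟨l, hl, hX, -⟩ := exists_slope_two hP h2
  have e1 := equation hP
  rw [hX]
  simp only [psi2] at hl ⊢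
  simp only [b₄, b₆, b₈]
  generalize xc P = x at *
  generalize yc P = y at *
  generalize W.a₁ = a1 at *
  generalize W.a₂ = a2 at *
  generalize W.a₃ = a3 at *
  generalize W.a₄ = a4 at *
  generalize W.a₆ = a6 at *
  linear_combination (l * (2 * y + a1 * x + a3) + (3 * x ^ 2 + 2 * a2 * x + a4 - a1 * y)
    + a1 * (2 * y + a1 * x + a3)) * hl + (-8*x - a1^2 - 4*a2) * e1

/-- Duplication formula for `2y + a₁x + a₃`. -/
lemma psi2_two {P : W.Point} (hP : P ≠ 0) (h2 : P + P ≠ 0) :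
    psi2 (P + P) * psi2 P ^ 3 = (W.preΨ₄).eval (xc P) := by
  obtain ⟨l, hl, hX, hY⟩ := exists_slope_two hP h2
  have e1 := equation hP
  have hX2 := xc_two hP h2
  have hnum : psi2 (P + P) * psi2 P ^ 3 = -2 * ((l * psi2 P) * (xc (P + P) * psi2 P ^ 2 -
      xc P * psi2 P ^ 2) + yc P * psi2 P ^ 3) - W.a₁ * (xc (P + P) * psi2 P ^ 2) * psi2 P
        - W.a₃ * psi2 P ^ 3 := by
    conv_lhs => rw [psi2, hY]
    ring
  have hXX : xc (P + P) * psi2 P ^ 2 = (3 * xc P ^ 2 + 2 * W.a₂ * xc P + W.a₄ - W.a₁ * yc P) ^ 2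
      + W.a₁ * (3 * xc P ^ 2 + 2 * W.a₂ * xc P + W.a₄ - W.a₁ * yc P) * psi2 P
      - (W.a₂ + 2 * xc P) * psi2 P ^ 2 := by
    rw [← hl, hX]; ring
  rw [hnum, hl, hXX]
  simp only [preΨ₄, Polynomial.eval_add, Polynomial.eval_mul, Polynomial.eval_pow,
    Polynomial.eval_X, Polynomial.eval_C, Polynomial.eval_ofNat]
  simp only [psi2, b₂, b₄, b₆, b₈]
  clear hnum hXX hX2 hl hX hY
  generalize xc P = x at *
  generalize yc P = y at *
  generalize W.a₁ = a1 at *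
  generalize W.a₂ = a2 at *
  generalize W.a₃ = a3 at *
  generalize W.a₄ = a4 at *
  generalize W.a₆ = a6 at *
  linear_combination (-16*y^2 - 16*y*x*a1 - 16*y*a3 + 56*x^3 + 10*x^2*a1^2 + 56*x^2*a2 + x*a1^4
    + 8*x*a1^2*a2 - 4*x*a1*a3 + 16*x*a2^2 + 8*x*a4 + a1^3*a3 + 2*a1^2*a4 + 4*a1*a2*a3 + 8*a2*a4
    - 8*a3^2 - 16*a6) * e1

end Fermat.Agent.DivPoly
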