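import Fermat.Agent.DivPoly.Poly

/-!
# Zeros of division polynomials

Over an algebraically closed field of characteristic zero, for an elliptic curve `W` and a
non-zero point `P`: `uu P n = 0 ↔ n • P = 0`, and `x(nP) ψₙ(P)² = φₙ(P)` whenever `n • P ≠ 0`.
-/

set_option autoImplicit false

namespace Fermat.Agent.DivPoly

open WeierstrassCurve WeierstrassCurve.Affine WeierstrassCurve.Affine.Point
open Polynomial

variable {F : Type*} [Field F] {W : Affine F}

lemma Psi3_ne_zero_of_psi2_eq_zero {P : W.Point} (hP : P ≠ 0) (h : psi2 P = 0) :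
    W.Ψ₃.eval (xc P) ≠ 0 := by
  obtain ⟨hns, -⟩ := exists_some hP
  have e1 := equation hP
  rw [nonsingular_iff] at hns
  have h1 : 3 * xc P ^ 2 + 2 * W.a₂ * xc P + W.a₄ - W.a₁ * yc P ≠ 0 := by
    rcases hns.2 with h' | h'
    · intro h''; apply h'; linear_combination -h''
    · exact absurd (by rw [psi2] at h; linear_combination h) h'
  have key : W.Ψ₃.eval (xc P) = -(3 * xc P ^ 2 + 2 * W.a₂ * xc P + W.a₄ - W.a₁ * yc P) ^ 2 := by
    simp only [Ψ₃, eval_add, eval_mul, eval_pow, eval_X, eval_C, eval_ofNat]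
    simp only [psi2] at h
    simp only [b₂, b₄, b₆, b₈]
    generalize xc P = x at *
    generalize yc P = y at *
    generalize W.a₁ = a1 at *
    generalize W.a₂ = a2 at *
    generalize W.a₃ = a3 at *
    generalize W.a₄ = a4 at *
    generalize W.a₆ = a6 at *
    linear_combination (x * (2 * y + a1 * x + a3) - a1 * (3 * x ^ 2 + 2 * a2 * x + a4 - a1 * y) +
      (a2 + 2 * x) * (2 * y + a1 * x + a3)) * h + (-12 * x - (a1 ^ 2 + 4 * a2)) * e1
  rw [key]
  exact neg_ne_zero.mpr (pow_ne_zero 2 h1)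

variable [DecidableEq F]

theorem uu_succ_ne_zero {P : W.Point} (hP : P ≠ 0) (h0 : addOrderOf P ≠ 0) :
    uu P (addOrderOf P + 1) ≠ 0 := by
  set N := addOrderOf P with hN
  have h1 : N ≠ 1 := by rw [hN, Ne, AddMonoid.addOrderOf_eq_one_iff]; exact hP
  have hNP : N • P = 0 := addOrderOf_nsmul_eq_zero P
  have hB : BigOrder P (N - 1) := BigOrder_iff.mpr (Or.inr (by omega))
  by_cases h2 : N = 2
  · rw [h2] at hNP ⊢
    rw [show ((2 : ℕ) : ℤ) + 1 = 3 by norm_num, uu_three]
    exact Psi3_ne_zero_of_psi2_eq_zero hP (psi2_eq_zero hP (by rwa [← two_nsmul]))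
  have h2P : P + P ≠ 0 := by rw [← two_nsmul]; exact hB 2 (by omega) (by omega)
  have hpsi := psi2_ne_zero hP h2P
  by_cases h3 : N = 3
  · rw [h3] at hNP ⊢
    rw [show ((3 : ℕ) : ℤ) + 1 = 4 by norm_num, uu_four, ← psi2_two hP h2P]
    have : P + P = -P := by
      rw [eq_neg_iff_add_eq_zero]
      rw [show (3 : ℕ) = 2 + 1 by norm_num, add_nsmul, two_nsmul, one_nsmul] at hNP
      exact hNP
    rw [this, psi2_neg hP]
    exact mul_ne_zero (mul_ne_zero (neg_ne_zero.mpr hpsi) (pow_ne_zero 3 hpsi)) hpsi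
  obtain ⟨k, hk | hk⟩ : ∃ k, N = 2 * k ∨ N = 2 * k + 1 := ⟨N / 2, by omega⟩
  · have A0 := hB.AA k (by omega) (by omega)
    have A1 := hB.AA (k + 1) (by omega) (by omega)
    have u0 := hB.uu_ne k (by omega) (by omega)
    have u1 := hB.uu_ne (k + 1) (by omega) (by omega)
    push_cast at A1 u1
    rw [hk, Nat.cast_mul, Nat.cast_ofNat, uu_odd' A0 A1]
    refine mul_ne_zero (mul_ne_zero (pow_ne_zero 2 u0) (pow_ne_zero 2 u1)) (sub_ne_zero.mpr ?_)
    have hk0 := hB.zsmul_ne k (by omega) (by omega)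
    have hk1 := hB.zsmul_ne (k + 1) (by omega) (by omega)
    push_cast at hk1
    apply xc_ne hk0 hk1
    · intro e
      rw [add_zsmul, one_zsmul, left_eq_add] at e
      exact hP e
    · intro e
      rw [eq_neg_iff_add_eq_zero, ← add_zsmul, show (k : ℤ) + (k + 1) = ((2 * k : ℕ) : ℤ) + 1 by
        push_cast; ring, add_zsmul, natCast_zsmul, ← hk, hNP, zero_add, one_zsmul] at e
      exact hP e
  · have A0 := hB.AA k (by omega) (by omega)
    have A1 := hB.AA (k + 1) (by omega) (by omega)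
    have A2 := hB.AA (k + 2) (by omega) (by omega)
    have u1 := hB.uu_ne (k + 1) (by omega) (by omega)
    have hk1 := hB.zsmul_ne (k + 1) (by omega) (by omega)
    have hx1 := hB.xc_ne (a := k + 1) (b := 1) (by omega) (by omega) (by omega)
    push_cast at A1 A2 u1 hk1 hx1
    rw [one_zsmul] at hx1
    have B := BB hP hpsi hk1 hx1 A1 (by rwa [add_sub_cancel_right])
      (by rwa [show (k : ℤ) + 1 + 1 = k + 2 by ring])
    rw [hk, Nat.cast_add, Nat.cast_mul, Nat.cast_ofNat, Nat.cast_one,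
      show 2 * (k : ℤ) + 1 + 1 = 2 * (k + 1) by ring, ← B]
    refine mul_ne_zero (psi2_ne_zero hk1 ?_) (pow_ne_zero 4 u1)
    intro e
    rw [← add_zsmul, show (k : ℤ) + 1 + (k + 1) = ((2 * k + 1 : ℕ) : ℤ) + 1 by
        push_cast; ring, add_zsmul, natCast_zsmul, ← hk, hNP, zero_add, one_zsmul] at e
    exact hP e

variable [CharZero F] [IsAlgClosed F]

theorem dvd_of_uu_eq_zero (hΔ : W.Δ ≠ 0) {P : W.Point} (hP : P ≠ 0) (m : ℕ) (hm : 1 ≤ m)
    (h : uu P m = 0) : addOrderOf P ∣ m := by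
  induction m using Nat.strong_induction_on with
  | _ m ih =>
    set N := addOrderOf P with hN
    by_cases hB : BigOrder P m
    · exact absurd h (hB.uu_ne m hm le_rfl)
    rw [BigOrder_iff] at hB
    push Not at hB
    rw [← hN] at hB
    rcases hB.2.eq_or_lt with he | hlt
    · rw [he]
    have h1 : N ≠ 1 := by rw [hN, Ne, AddMonoid.addOrderOf_eq_one_iff]; exact hP
    have hB' : BigOrder P (N - 1) := BigOrder_iff.mpr (Or.inr (by omega))
    have u0 := hB'.uu_ne (N - 1) (by omega) le_rfl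
    have u1 := uu_succ_ne_zero hP hB.1
    rw [Nat.cast_sub (by omega), Nat.cast_one] at u0
    rw [← hN] at u1
    have r := uu_rel hΔ hP (m - N) N (by omega) (by omega)
    have uN : uu P N = 0 := uu_addOrderOf hP
    have e1 : ((m - N : ℕ) : ℤ) + N = m := by omega
    rw [e1, h, uN] at r
    have r' : uu P ((N : ℤ) + 1) * uu P ((N : ℤ) - 1) * uu P ((m - N : ℕ) : ℤ) ^ 2 = 0 := by
      linear_combination r
    have hz : uu P ((m - N : ℕ) : ℤ) = 0 := by
      rcases mul_eq_zero.mp r' with h' | h'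
      · rcases mul_eq_zero.mp h' with h'' | h''
        · exact absurd h'' u1
        · exact absurd h'' u0
      · exact pow_eq_zero_iff (two_ne_zero) |>.mp h'
    have := ih (m - N) (by omega) (by omega) hz
    rw [← Nat.sub_add_cancel hlt.le]
    exact dvd_add this dvd_rfl

theorem uu_eq_zero_iff (hΔ : W.Δ ≠ 0) {P : W.Point} (hP : P ≠ 0) (n : ℕ) :
    uu P n = 0 ↔ n • P = 0 := by
  rw [← addOrderOf_dvd_iff_nsmul_eq_zero]
  by_cases hn : n = 0
  · subst hn; simp
  constructor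
  · exact dvd_of_uu_eq_zero hΔ hP n (by omega)
  set N := addOrderOf P with hN
  rintro ⟨j, rfl⟩
  have h0 : N ≠ 0 := by rintro h; simp [h] at hn
  have h1 : N ≠ 1 := by rw [hN, Ne, AddMonoid.addOrderOf_eq_one_iff]; exact hP
  have uN : uu P N = 0 := uu_addOrderOf hP
  have hB' : BigOrder P (N - 1) := BigOrder_iff.mpr (Or.inr (by omega))
  have u0 := hB'.uu_ne (N - 1) (by omega) le_rfl
  have u1 := uu_succ_ne_zero hP h0
  rw [Nat.cast_sub (by omega), Nat.cast_one] at u0
  rw [← hN] at u1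
  clear hn
  induction j with
  | zero => simp
  | succ j ih =>
    rcases Nat.eq_zero_or_pos j with rfl | hj
    · simpa using uN
    -- `m = (j+1) N`, relation with `n = N`
    have r := uu_rel hΔ hP (N * (j + 1)) N (by omega)
      (Nat.mul_pos (by omega) (by omega))
    have e1 : ((N * (j + 1) : ℕ) : ℤ) - N = ((N * j : ℕ) : ℤ) := by push_cast; ring
    rw [e1, ih, uN] at r
    have r' : uu P ((N : ℤ) + 1) * uu P ((N : ℤ) - 1) * uu P ((N * (j + 1) : ℕ) : ℤ) ^ 2 = 0 := by
      linear_combination r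
    rcases mul_eq_zero.mp r' with h' | h'
    · rcases mul_eq_zero.mp h' with h'' | h''
      · exact absurd h'' u1
      · exact absurd h'' u0
    · exact pow_eq_zero_iff (two_ne_zero) |>.mp h'

/-- The basic relation holds for all `n` with `n • P ≠ 0`. -/
theorem AA_of_ne (hΔ : W.Δ ≠ 0) {P : W.Point} (n : ℕ) (hn : n • P ≠ 0) : AA P n := by
  have hP : P ≠ 0 := by rintro rfl; simp at hn
  induction n using Nat.strong_induction_on with
  | _ n ih =>
    have hn0 : n ≠ 0 := by rintro rfl; simp at hn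
    by_cases hB : BigOrder P n
    · exact hB.AA n (by omega) le_rfl
    rw [BigOrder_iff] at hB
    push Not at hB
    set N := addOrderOf P with hN
    have hNP : N • P = 0 := addOrderOf_nsmul_eq_zero P
    have hlt : N < n := by
      rcases hB.2.eq_or_lt with he | hlt
      · rw [← he] at hn; exact absurd hNP hn
      · exact hlt
    have e0 : n • P = (n - N) • P := by
      conv_lhs => rw [← Nat.sub_add_cancel hlt.le, add_nsmul, hNP, add_zero]
    have A := ih (n - N) (by omega) (by rwa [← e0])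
    have un : uu P n ≠ 0 := by rwa [Ne, uu_eq_zero_iff hΔ hP]
    have un' : uu P ((n - N : ℕ) : ℤ) ≠ 0 := by rwa [Ne, uu_eq_zero_iff hΔ hP, ← e0]
    have r := uu_rel hΔ hP n (n - N) (by omega) (by omega)
    have e1 : (n : ℤ) - ((n - N : ℕ) : ℤ) = N := by omega
    rw [e1, uu_addOrderOf hP] at r
    rw [AA, natCast_zsmul] at A ⊢
    rw [e0]
    apply mul_right_cancel₀ (pow_ne_zero 2 un')
    linear_combination uu P n ^ 2 * A + r

/-- The multiplication formula: `x(nP) ΨSqₙ(x) = Φₙ(x)`. -/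
theorem xc_nsmul (hΔ : W.Δ ≠ 0) {P : W.Point} (n : ℕ) (hn : n • P ≠ 0) :
    xc (n • P) * (W.ΨSq n).eval (xc P) = (W.Φ n).eval (xc P) := by
  have hP : P ≠ 0 := by rintro rfl; simp at hn
  have A := AA_of_ne hΔ n hn
  rw [AA, natCast_zsmul] at A
  rw [← uu_sq hP, ← xc_mul_uu_sq hP]
  linear_combination -A

/-- `n • P = 0` iff `ΨSqₙ(x(P)) = 0`. -/
theorem eval_ΨSq_eq_zero_iff (hΔ : W.Δ ≠ 0) {P : W.Point} (hP : P ≠ 0) (n : ℕ) :
    (W.ΨSq n).eval (xc P) = 0 ↔ n • P = 0 := by
  rw [← uu_sq hP, pow_eq_zero_iff two_ne_zero, uu_eq_zero_iff hΔ hP]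

/-- For odd `n`: `n • P = 0` iff `preΨₙ(x(P)) = 0`. -/
theorem eval_preΨ_eq_zero_iff (hΔ : W.Δ ≠ 0) {P : W.Point} (hP : P ≠ 0) (n : ℕ) (hn : Odd n) :
    (W.preΨ n).eval (xc P) = 0 ↔ n • P = 0 := by
  have : ¬ Even (n : ℤ) := by
    rw [Int.even_coe_nat]; exact Nat.not_even_iff_odd.mpr hn
  rw [← uu_eq_zero_iff hΔ hP, uu_eq hP, if_neg this, mul_one]

end Fermat.Agent.DivPoly
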